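/-
S52 / Program E, package E3 (helper91): existence of a point `v0` of the Klein
icosahedral forms with prescribed invariants `(H, T)(v0) = (A0, B0)` over an
algebraically closed field in which 2, 3, 5 are invertible.

Mathlib-only.  The Klein forms are stated here as plain polynomial functions
(`kf`, `kH`, `kT`), with `kT ^ 2 + kH ^ 3 = 1728 * kf ^ 5`.
-/
import Mathlib

namespace Fermat.Agent.S52.H91

section Forms

variable {R : Type*} [CommRing R]

/-- Klein's icosahedral vertex form (degree 12). -/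
def kf (x y : R) : R := x * y * (x ^ 10 + 11 * x ^ 5 * y ^ 5 - y ^ 10)

/-- Klein's icosahedral face form (degree 20). -/
def kH (x y : R) : R :=
  -(x ^ 20 + y ^ 20) + 228 * (x ^ 15 * y ^ 5 - x ^ 5 * y ^ 15) - 494 * x ^ 10 * y ^ 10

/-- Klein's icosahedral edge form (degree 30). -/
def kT (x y : R) : R :=
  (x ^ 30 + y ^ 30) + 522 * (x ^ 25 * y ^ 5 - x ^ 5 * y ^ 25)
    - 10005 * (x ^ 20 * y ^ 10 + x ^ 10 * y ^ 20)

/-- The icosahedral syzygy. -/
theorem klein_syzygy (x y : R) : kT x y ^ 2 + kH x y ^ 3 = 1728 * kf x y ^ 5 := by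
  unfold kT kH kf
  ring

theorem kf_smul (c x y : R) : kf (c * x) (c * y) = c ^ 12 * kf x y := by
  unfold kf
  ring

theorem kH_smul (c x y : R) : kH (c * x) (c * y) = c ^ 20 * kH x y := by
  unfold kH
  ring

theorem kT_smul (c x y : R) : kT (c * x) (c * y) = c ^ 30 * kT x y := by
  unfold kT
  ring

/-- Bezout certificate: `kf` and `kH` have no common zero on the line `y = 1`
unless `5 ^ 5 = 0`. -/
theorem klein_bezout (x : R) (hx : x ^ 10 + 11 * x ^ 5 - 1 = 0) (hH : kH x 1 = 0) :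
    (3125 : R) = 0 := by
  unfold kH at hH
  linear_combination
    (3125 * 121 + (11 * x ^ 5 + 122) * (-(x ^ 5) ^ 2 + 239 * x ^ 5 - 3124)) * hx
      - (11 * x ^ 5 + 122) * hH

end Forms

section Field

variable {k : Type*} [Field k]

/-- `kH` and `kT` have no common zero on the line `y = 1` when `2, 3, 5` are invertible. -/
theorem kH_kT_not_both_zero (h2 : (2 : k) ≠ 0) (h3 : (3 : k) ≠ 0) (h5 : (5 : k) ≠ 0)
    (x : k) (hH : kH x 1 = 0) (hT : kT x 1 = 0) : False := by
  have hs := klein_syzygy x (1 : k)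
  rw [hH, hT] at hs
  have h1728 : (1728 : k) ≠ 0 := by
    have : (1728 : k) = 2 ^ 6 * 3 ^ 3 := by norm_num
    rw [this]
    exact mul_ne_zero (pow_ne_zero _ h2) (pow_ne_zero _ h3)
  have hf : kf x 1 = 0 := by
    have : (1728 : k) * kf x 1 ^ 5 = 0 := by rw [← hs]; ring
    rcases mul_eq_zero.mp this with h | h
    · exact absurd h h1728
    · exact pow_eq_zero_iff (by norm_num) |>.mp h
  have h3125 : (3125 : k) ≠ 0 := by
    have : (3125 : k) = 5 ^ 5 := by norm_num
    rw [this]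
    exact pow_ne_zero _ h5
  unfold kf at hf
  rcases mul_eq_zero.mp hf with h | h
  · rcases mul_eq_zero.mp h with h | h
    · rw [h] at hH
      unfold kH at hH
      norm_num at hH
    · exact one_ne_zero h
  · exact h3125 (klein_bezout x (by linear_combination h) hH)

open Polynomial in
/-- **E3.** Over an algebraically closed field in which `2, 3, 5` are invertible, every pair
`(A0, B0)` with `A0 ^ 3 + B0 ^ 2 ≠ 0` is the pair of Klein invariants of a point. -/
theorem exists_klein_point [IsAlgClosed k] (h2 : (2 : k) ≠ 0) (h3 : (3 : k) ≠ 0)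
    (h5 : (5 : k) ≠ 0) (A0 B0 : k) (hAB : A0 ^ 3 + B0 ^ 2 ≠ 0) :
    ∃ x y : k, kH x y = A0 ∧ kT x y = B0 := by
  classical
  -- the degree-60 polynomial whose roots are the points of the line `y = 1` with the right `j`
  set Hp : k[X] := -(X ^ 20 + 1) + 228 * (X ^ 15 - X ^ 5) - 494 * X ^ 10 with hHp
  set Tp : k[X] := (X ^ 30 + 1) + 522 * (X ^ 25 - X ^ 5) - 10005 * (X ^ 20 + X ^ 10) with hTp
  set G : k[X] := C (B0 ^ 2) * Hp ^ 3 - C (A0 ^ 3) * Tp ^ 2 with hG
  have hHe : ∀ x : k, Hp.eval x = kH x 1 := by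
    intro x; simp [hHp, kH]
  have hTe : ∀ x : k, Tp.eval x = kT x 1 := by
    intro x; simp [hTp, kT]
  have hnat : G.natDegree = 60 := by
    rw [hG, hHp, hTp]
    compute_degree
    · have h1 : coeff (1 : k[X]) 20 = 0 := by
        rw [coeff_one]; norm_num
      rw [h1]
      intro h
      apply hAB
      linear_combination -h
    all_goals norm_num
  have hdeg : G.degree ≠ 0 := by
    intro h
    have := natDegree_eq_zero_iff_degree_le_zero.mpr h.le
    omega
  obtain ⟨x0, hx0⟩ := IsAlgClosed.exists_root G hdeg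
  have hroot : B0 ^ 2 * kH x0 1 ^ 3 = A0 ^ 3 * kT x0 1 ^ 2 := by
    have := hx0
    rw [IsRoot.def, hG] at this
    simp only [eval_sub, eval_mul, eval_C, eval_pow, hHe, hTe] at this
    linear_combination this
  set H1 := kH x0 1 with hH1
  set T1 := kT x0 1 with hT1
  have hnb : ¬ (H1 = 0 ∧ T1 = 0) := fun h => kH_kT_not_both_zero h2 h3 h5 x0 h.1 h.2
  -- the scaling factor
  obtain ⟨μ, hμ2, hμ3⟩ : ∃ μ : k, μ ^ 2 * H1 = A0 ∧ μ ^ 3 * T1 = B0 := by
    by_cases hH0 : H1 = 0
    · have hT0 : T1 ≠ 0 := fun h => hnb ⟨hH0, h⟩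
      have hA : A0 = 0 := by
        rw [hH0] at hroot
        have : A0 ^ 3 * T1 ^ 2 = 0 := by rw [← hroot]; ring
        rcases mul_eq_zero.mp this with h | h
        · exact pow_eq_zero_iff (by norm_num) |>.mp h
        · exact absurd (pow_eq_zero_iff (by norm_num) |>.mp h) hT0
      obtain ⟨μ, hμ⟩ := IsAlgClosed.exists_pow_nat_eq (B0 / T1) (by norm_num : 0 < 3)
      refine ⟨μ, ?_, ?_⟩
      · rw [hH0, hA]; ring
      · rw [hμ]; field_simp
    · by_cases hT0 : T1 = 0
      · have hB : B0 = 0 := by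
          rw [hT0] at hroot
          have : B0 ^ 2 * H1 ^ 3 = 0 := by rw [hroot]; ring
          rcases mul_eq_zero.mp this with h | h
          · exact pow_eq_zero_iff (by norm_num) |>.mp h
          · exact absurd (pow_eq_zero_iff (by norm_num) |>.mp h) hH0
        obtain ⟨μ, hμ⟩ := IsAlgClosed.exists_pow_nat_eq (A0 / H1) (by norm_num : 0 < 2)
        refine ⟨μ, ?_, ?_⟩
        · rw [hμ]; field_simp
        · rw [hT0, hB]; ring
      · have hA : A0 ≠ 0 := by
          intro hA
          rw [hA] at hroot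
          have : B0 ^ 2 * H1 ^ 3 = 0 := by rw [hroot]; ring
          rcases mul_eq_zero.mp this with h | h
          · apply hAB
            rw [hA, pow_eq_zero_iff (by norm_num) |>.mp h]; ring
          · exact absurd (pow_eq_zero_iff (by norm_num) |>.mp h) hH0
        refine ⟨B0 * H1 / (A0 * T1), ?_, ?_⟩
        · field_simp
          linear_combination hroot
        · field_simp
          linear_combination B0 * hroot
  obtain ⟨lam, hlam⟩ := IsAlgClosed.exists_pow_nat_eq μ (by norm_num : 0 < 10)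
  refine ⟨lam * x0, lam * 1, ?_, ?_⟩
  · rw [kH_smul, ← hH1, ← hμ2, ← hlam]; ring
  · rw [kT_smul, ← hT1, ← hμ3, ← hlam]; ring

/-- **E3, with the side information.**  The point found by `exists_klein_point` has
`kf ≠ 0` (in fact for every point with these invariants). -/
theorem kf_ne_zero_of_invariants (A0 B0 : k) (hAB : A0 ^ 3 + B0 ^ 2 ≠ 0) (x y : k) (hH : kH x y = A0) (hT : kT x y = B0) :
    kf x y ≠ 0 := by
  intro hf
  have hs := klein_syzygy x y
  rw [hH, hT, hf] at hs
  apply hAB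
  linear_combination hs

theorem exists_klein_point' [IsAlgClosed k] (h2 : (2 : k) ≠ 0) (h3 : (3 : k) ≠ 0)
    (h5 : (5 : k) ≠ 0) (A0 B0 : k) (hAB : A0 ^ 3 + B0 ^ 2 ≠ 0) :
    ∃ x y : k, kH x y = A0 ∧ kT x y = B0 ∧ kf x y ≠ 0 := by
  obtain ⟨x, y, hH, hT⟩ := exists_klein_point h2 h3 h5 A0 B0 hAB
  exact ⟨x, y, hH, hT, kf_ne_zero_of_invariants A0 B0 hAB x y hH hT⟩

/-- **E3, definition-free form** (for consumers that use their own names for the Klein
forms): the three forms are written out. -/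
theorem exists_klein_point_explicit [IsAlgClosed k] (h2 : (2 : k) ≠ 0) (h3 : (3 : k) ≠ 0)
    (h5 : (5 : k) ≠ 0) (A0 B0 : k) (hAB : A0 ^ 3 + B0 ^ 2 ≠ 0) :
    ∃ x y : k,
      -(x ^ 20 + y ^ 20) + 228 * (x ^ 15 * y ^ 5 - x ^ 5 * y ^ 15) - 494 * x ^ 10 * y ^ 10 = A0 ∧
      (x ^ 30 + y ^ 30) + 522 * (x ^ 25 * y ^ 5 - x ^ 5 * y ^ 25)
        - 10005 * (x ^ 20 * y ^ 10 + x ^ 10 * y ^ 20) = B0 ∧
      x * y * (x ^ 10 + 11 * x ^ 5 * y ^ 5 - y ^ 10) ≠ 0 :=
  exists_klein_point' h2 h3 h5 A0 B0 hAB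

end Field

end Fermat.Agent.S52.H91
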