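/-
S52 / Program E, package E2 in the single-point form (S2) (helper91): the explicit
5-torsion point on `y² = x³ + 27 H(v) x + 54 T(v)` — ring certificates.

Everything is a polynomial identity in `u = x⁵`, `v = y⁵` over `ℤ[r]/(r² - 5)`;
cofactors were computed by exact integer arithmetic.  Mathlib-only.

Scaled coordinates (so that all coefficients are integers):
`X1 = tX5 / 5`, `Y1 = tY10 / 10`, with `p² = -5832 (25 + 11 r)` (`p = 5 ρ`).
-/
import Mathlib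
import Fermat.Agent.S52.H91.KleinPoint

namespace Fermat.Agent.S52.H91

section Cert

variable {R : Type*} [CommRing R]

/-- `x¹⁰ + 11 x⁵ y⁵ - y¹⁰` in `u = x⁵`, `v = y⁵`. -/
def km (u v : R) : R := u ^ 2 + 11 * u * v - v ^ 2

/-- `kH` in `u = x⁵`, `v = y⁵`. -/
def kHu (u v : R) : R :=
  -(u ^ 4 + v ^ 4) + 228 * (u ^ 3 * v - u * v ^ 3) - 494 * u ^ 2 * v ^ 2

/-- `kT` in `u = x⁵`, `v = y⁵`. -/
def kTu (u v : R) : R :=
  (u ^ 6 + v ^ 6) + 522 * (u ^ 5 * v - u * v ^ 5) - 10005 * (u ^ 4 * v ^ 2 + u ^ 2 * v ^ 4)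

/-- `5 X1`. -/
def tX5 (r u v : R) : R := -75 * (u ^ 2 + v ^ 2) - 18 * r * km u v

/-- The linear factor of `Y1`. -/
def tL (r u v : R) : R := 2 * u + (11 - 5 * r) * v

/-- `10 Y1`. -/
def tY10 (r p u v : R) : R := p * tL r u v * km u v

theorem kf_eq_km (x y : R) : kf x y = x * y * km (x ^ 5) (y ^ 5) := by
  unfold kf km; ring

theorem kH_eq_kHu (x y : R) : kH x y = kHu (x ^ 5) (y ^ 5) := by
  unfold kH kHu; ring

theorem kT_eq_kTu (x y : R) : kT x y = kTu (x ^ 5) (y ^ 5) := by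
  unfold kT kTu; ring

/-- The cubic `4 X5³ + 2700 H X5 + 27000 T` (`= 500 (X1³ + 27 H X1 + 54 T)`) is a constant
times a square. -/
theorem tors_cubic (r u v : R) (hr : r ^ 2 = 5) :
    4 * tX5 r u v ^ 3 + 2700 * kHu u v * tX5 r u v + 27000 * kTu u v
      = -29160 * (25 + 11 * r) * tL r u v ^ 2 * km u v ^ 2 := by
  unfold tX5 tL km kHu kTu
  linear_combination
    (-23328 * u ^ 6 * r - 291600 * u ^ 6 - 769824 * u ^ 5 * v * r - 12830400 * u ^ 5 * v - 379080 * u ^ 4 * v ^ 2 * r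
      - 193185000 * u ^ 4 * v ^ 2 + 146908080 * u ^ 3 * v ^ 3 * r - 1138698000 * u ^ 3 * v ^ 3
      + 962659080 * u ^ 2 * v ^ 4 * r - 1923831000 * u ^ 2 * v ^ 4 - 177187824 * u * v ^ 5 * r
      + 375289200 * u * v ^ 5 + 8042328 * v ^ 6 * r - 17350200 * v ^ 6) * hr

/-- **On-curve certificate**: `5 Y10² = 4 X5³ + 2700 H X5 + 27000 T`. -/
theorem tors_on_curve (r p u v : R) (hr : r ^ 2 = 5) (hp : p ^ 2 = -5832 * (25 + 11 * r)) :
    5 * tY10 r p u v ^ 2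
      = 4 * tX5 r u v ^ 3 + 2700 * kHu u v * tX5 r u v + 27000 * kTu u v := by
  rw [tors_cubic r u v hr]
  unfold tY10
  linear_combination (5 * tL r u v ^ 2 * km u v ^ 2) * hp

/-- **Duplication certificate**: `x(2P) = X1(-r)`, in the scaled form
`X5(-r) (4 X5³ + 2700 H X5 + 27000 T) = X5⁴ - 1350 H X5² - 54000 T X5 + 455625 H²`. -/
theorem tors_dup (r u v : R) (hr : r ^ 2 = 5) :
    tX5 (-r) u v * (4 * tX5 r u v ^ 3 + 2700 * kHu u v * tX5 r u v + 27000 * kTu u v)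
      = tX5 r u v ^ 4 - 1350 * kHu u v * tX5 r u v ^ 2 - 54000 * kTu u v * tX5 r u v
        + 455625 * kHu u v ^ 2 := by
  unfold tX5 km kHu kTu
  linear_combination
    (-524880 * u ^ 8 * r ^ 2 - 5248800 * u ^ 8 * r - 13122000 * u ^ 8 - 23094720 * u ^ 7 * v * r ^ 2
      - 173210400 * u ^ 7 * v * r - 446148000 * u ^ 7 * v - 378963360 * u ^ 6 * v ^ 2 * r ^ 2 - 1894816800 * u ^ 6 * v ^ 2 * r
      - 5143824000 * u ^ 6 * v ^ 2 - 2725176960 * u ^ 5 * v ^ 3 * r ^ 2 - 6812942400 * u ^ 5 * v ^ 3 * r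
      - 20890224000 * u ^ 5 * v ^ 3 - 6925791600 * u ^ 4 * v ^ 4 * r ^ 2 - 7151490000 * u ^ 4 * v ^ 4
      + 2725176960 * u ^ 3 * v ^ 5 * r ^ 2 - 6812942400 * u ^ 3 * v ^ 5 * r + 20890224000 * u ^ 3 * v ^ 5
      - 378963360 * u ^ 2 * v ^ 6 * r ^ 2 + 1894816800 * u ^ 2 * v ^ 6 * r - 5143824000 * u ^ 2 * v ^ 6
      + 23094720 * u * v ^ 7 * r ^ 2 - 173210400 * u * v ^ 7 * r + 446148000 * u * v ^ 7 - 524880 * v ^ 8 * r ^ 2
      + 5248800 * v ^ 8 * r - 13122000 * v ^ 8) * hr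

/-- `X1(r) - X1(-r) = -(36 r / 5) m`. -/
theorem tX5_sub_conj (r u v : R) : tX5 r u v - tX5 (-r) u v = -36 * r * km u v := by
  unfold tX5; ring

/-- The two conjugate linear factors multiply to `4 m`. -/
theorem tL_mul_conj (r u v : R) (hr : r ^ 2 = 5) : tL r u v * tL (-r) u v = 4 * km u v := by
  unfold tL km
  linear_combination (-25 * v ^ 2) * hr

end Cert

end Fermat.Agent.S52.H91
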