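/-
S52 / Program E, package E2 in the single-point form (S2) (helper91): the explicit point
`P = (X1, Y1)` of exact order 5 on the short Weierstrass curve
`y² = x³ + 27 H(v) x + 54 T(v)`, as a statement about Mathlib's `WeierstrassCurve.Affine.Point`.

The constants `(r, p)` are arbitrary solutions of `r² = 5`, `p² = -5832 (25 + 11 r)`, so the
statement applies verbatim to Frobenius-twisted constants.
-/
import Mathlib
import Fermat.Agent.S52.H91.TorsCert
import Fermat.Agent.S52.H3.AddSubX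

open WeierstrassCurve WeierstrassCurve.Affine

namespace Fermat.Agent.S52.H91

section Point

variable {K : Type*} [Field K]

/-- The x-coordinate of the explicit 5-torsion point. -/
noncomputable def tX1 (r x y : K) : K := tX5 r (x ^ 5) (y ^ 5) / 5

/-- The y-coordinate of the explicit 5-torsion point. -/
noncomputable def tY1 (r p x y : K) : K := tY10 r p (x ^ 5) (y ^ 5) / 10

theorem km_ne_zero_of_kf {x y : K} (hf : kf x y ≠ 0) : km (x ^ 5) (y ^ 5) ≠ 0 := by
  intro h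
  apply hf
  rw [kf_eq_km, h, mul_zero]

theorem tors_const_ne_zero (h2 : (2 : K) ≠ 0) (h5 : (5 : K) ≠ 0) (r : K) (hr : r ^ 2 = 5) :
    25 + 11 * r ≠ 0 := by
  intro h
  have h20 : (20 : K) = 0 := by
    have : (25 + 11 * r) * (25 - 11 * r) = 20 := by linear_combination (-121) * hr
    rw [← this, h, zero_mul]
  have : (20 : K) = 2 ^ 2 * 5 := by norm_num
  rw [this] at h20
  exact (mul_ne_zero (pow_ne_zero _ h2) h5) h20

theorem neg_sq_eq_five {r : K} (hr : r ^ 2 = 5) : (-r) ^ 2 = 5 := by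
  rw [neg_sq, hr]

theorem tL_ne_zero (h2 : (2 : K) ≠ 0) (r u v : K) (hr : r ^ 2 = 5) (hm : km u v ≠ 0) :
    tL r u v ≠ 0 := by
  intro h
  have := tL_mul_conj r u v hr
  rw [h, zero_mul] at this
  have h4 : (4 : K) ≠ 0 := by
    have : (4 : K) = 2 ^ 2 := by norm_num
    rw [this]; exact pow_ne_zero _ h2
  exact (mul_ne_zero h4 hm) this.symm

/-- The value of the cubic at `X1` is nonzero (so the point is not 2-torsion). -/
theorem tors_cubic_ne_zero (h2 : (2 : K) ≠ 0) (h3 : (3 : K) ≠ 0) (h5 : (5 : K) ≠ 0)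
    (r u v : K) (hr : r ^ 2 = 5) (hm : km u v ≠ 0) :
    4 * tX5 r u v ^ 3 + 2700 * kHu u v * tX5 r u v + 27000 * kTu u v ≠ 0 := by
  rw [tors_cubic r u v hr]
  have hc : (29160 : K) ≠ 0 := by
    have : (29160 : K) = 2 ^ 3 * 3 ^ 6 * 5 := by norm_num
    rw [this]
    exact mul_ne_zero (mul_ne_zero (pow_ne_zero _ h2) (pow_ne_zero _ h3)) h5
  exact mul_ne_zero (mul_ne_zero (mul_ne_zero (neg_ne_zero.mpr hc)
    (tors_const_ne_zero h2 h5 r hr)) (pow_ne_zero _ (tL_ne_zero h2 r u v hr hm)))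
    (pow_ne_zero _ hm)

end Point

section Main

variable {K : Type*} [Field K] [DecidableEq K] (W : WeierstrassCurve.Affine K)

omit [DecidableEq K] in
/-- Cubic of the curve at `tX1`, cleared of denominators. -/
theorem tors_cubic_eval (h5 : (5 : K) ≠ 0) (x y : K)
    (ha₄ : W.a₄ = 27 * kH x y) (ha₆ : W.a₆ = 54 * kT x y) (r : K) :
    500 * (tX1 r x y ^ 3 + W.a₄ * tX1 r x y + W.a₆)
      = 4 * tX5 r (x ^ 5) (y ^ 5) ^ 3 + 2700 * kHu (x ^ 5) (y ^ 5) * tX5 r (x ^ 5) (y ^ 5)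
        + 27000 * kTu (x ^ 5) (y ^ 5) := by
  rw [ha₄, ha₆, kH_eq_kHu, kT_eq_kTu]
  unfold tX1
  field_simp
  ring

/-- Any nonsingular point with x-coordinate `tX1 r x y` has nonzero y-coordinate and its double
has x-coordinate `tX1 (-r) x y`. -/
theorem tors_double (h2 : (2 : K) ≠ 0) (h3 : (3 : K) ≠ 0) (h5 : (5 : K) ≠ 0)
    (ha₁ : W.a₁ = 0) (ha₂ : W.a₂ = 0) (ha₃ : W.a₃ = 0) (x y : K)
    (ha₄ : W.a₄ = 27 * kH x y) (ha₆ : W.a₆ = 54 * kT x y) (hf : kf x y ≠ 0)
    (r r' : K) (hr : r ^ 2 = 5) (hrr : r' = -r) (y₁ : K) (h₁ : W.Nonsingular (tX1 r x y) y₁) :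
    ∃ (y₃ : K) (h₃ : W.Nonsingular (tX1 r' x y) y₃),
      2 • Point.some (tX1 r x y) y₁ h₁ = Point.some (tX1 r' x y) y₃ h₃ := by
  subst hrr
  have hm := km_ne_zero_of_kf hf
  have E₁ := H3.short_equation W ha₁ ha₂ ha₃ h₁
  have hcub := tors_cubic_eval W h5 x y ha₄ ha₆ r
  have hne := tors_cubic_ne_zero h2 h3 h5 r (x ^ 5) (y ^ 5) hr hm
  have h500 : (500 : K) ≠ 0 := by
    have : (500 : K) = 2 ^ 2 * 5 ^ 3 := by norm_num
    rw [this]; exact mul_ne_zero (pow_ne_zero _ h2) (pow_ne_zero _ h5)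
  have hg : tX1 r x y ^ 3 + W.a₄ * tX1 r x y + W.a₆ ≠ 0 := by
    intro h
    rw [h, mul_zero] at hcub
    exact hne hcub.symm
  have hy₁ : y₁ ≠ 0 := by
    intro h
    rw [h] at E₁
    apply hg
    rw [← E₁]; ring
  obtain ⟨x₃, y₃, h₃, h2P, -, hx₃⟩ := H3.two_nsmul_X W ha₁ ha₂ ha₃ h₁ hy₁ h2
  have hdup := tors_dup r (x ^ 5) (y ^ 5) hr
  have hx₃' : x₃ = tX1 (-r) x y := by
    have h4 : (4 : K) ≠ 0 := by
      have : (4 : K) = 2 ^ 2 := by norm_num
      rw [this]; exact pow_ne_zero _ h2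
    have key : (x₃ - tX1 (-r) x y) * (4 * (tX1 r x y ^ 3 + W.a₄ * tX1 r x y + W.a₆)) = 0 := by
      have e1 : tX1 (-r) x y * (4 * (tX1 r x y ^ 3 + W.a₄ * tX1 r x y + W.a₆))
          = tX1 r x y ^ 4 - 2 * W.a₄ * tX1 r x y ^ 2 - 8 * W.a₆ * tX1 r x y + W.a₄ ^ 2 := by
        have h625 : (625 : K) ≠ 0 := by
          have : (625 : K) = 5 ^ 4 := by norm_num
          rw [this]; exact pow_ne_zero _ h5
        apply mul_left_cancel₀ h625
        rw [ha₄, ha₆, kH_eq_kHu, kT_eq_kTu]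
        unfold tX1
        field_simp
        linear_combination hdup
      linear_combination hx₃ - e1
    rcases mul_eq_zero.mp key with h | h
    · exact sub_eq_zero.mp h
    · exact absurd h (mul_ne_zero h4 hg)
  subst hx₃'
  exact ⟨y₃, h₃, h2P⟩

/-- **E2 (single-point form).**  On a short Weierstrass curve `y² = x³ + 27 H(v) x + 54 T(v)` over
a field with `2, 3, 5` invertible and `f(v) ≠ 0`, the explicit point `(tX1, tY1)` built from
constants `r² = 5`, `p² = -5832 (25 + 11 r)` is nonsingular and killed by `5`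
(it is nonzero, being an affine point). -/
theorem klein_torsion_point (h2 : (2 : K) ≠ 0) (h3 : (3 : K) ≠ 0) (h5 : (5 : K) ≠ 0)
    (ha₁ : W.a₁ = 0) (ha₂ : W.a₂ = 0) (ha₃ : W.a₃ = 0) (x y : K)
    (ha₄ : W.a₄ = 27 * kH x y) (ha₆ : W.a₆ = 54 * kT x y) (hf : kf x y ≠ 0)
    (r p : K) (hr : r ^ 2 = 5) (hp : p ^ 2 = -5832 * (25 + 11 * r)) :
    ∃ h : W.Nonsingular (tX1 r x y) (tY1 r p x y),
      5 • Point.some (tX1 r x y) (tY1 r p x y) h = 0 := by
  have hm := km_ne_zero_of_kf hf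
  have hcub := tors_cubic_eval W h5 x y ha₄ ha₆ r
  have hon := tors_on_curve r p (x ^ 5) (y ^ 5) hr hp
  have hne := tors_cubic_ne_zero h2 h3 h5 r (x ^ 5) (y ^ 5) hr hm
  -- the curve equation
  have heq : tY1 r p x y ^ 2 = tX1 r x y ^ 3 + W.a₄ * tX1 r x y + W.a₆ := by
    have h500 : (500 : K) ≠ 0 := by
      have : (500 : K) = 2 ^ 2 * 5 ^ 3 := by norm_num
      rw [this]; exact mul_ne_zero (pow_ne_zero _ h2) (pow_ne_zero _ h5)
    have h10 : (10 : K) ≠ 0 := by
      have : (10 : K) = 2 * 5 := by norm_num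
      rw [this]; exact mul_ne_zero h2 h5
    apply mul_left_cancel₀ h500
    rw [hcub, ← hon]
    unfold tY1
    field_simp
    ring
  have hY : tY1 r p x y ≠ 0 := by
    intro h
    rw [h] at heq
    have h0 : tX1 r x y ^ 3 + W.a₄ * tX1 r x y + W.a₆ = 0 := by rw [← heq]; ring
    rw [h0, mul_zero] at hcub
    exact hne hcub.symm
  have hns : W.Nonsingular (tX1 r x y) (tY1 r p x y) := by
    rw [Affine.nonsingular_iff, Affine.equation_iff, ha₁, ha₂, ha₃]
    refine ⟨by linear_combination heq, Or.inr ?_⟩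
    intro h
    have : 2 * tY1 r p x y = 0 := by linear_combination h
    rcases mul_eq_zero.mp this with h' | h'
    · exact h2 h'
    · exact hY h'
  refine ⟨hns, ?_⟩
  -- 2P, 4P
  obtain ⟨y₃, h₃, h2P⟩ := tors_double W h2 h3 h5 ha₁ ha₂ ha₃ x y ha₄ ha₆ hf r (-r) hr rfl _ hns
  obtain ⟨y₅, h₅, h4P⟩ := tors_double W h2 h3 h5 ha₁ ha₂ ha₃ x y ha₄ ha₆ hf (-r) r
    (neg_sq_eq_five hr) (neg_neg r).symm _ h₃
  set P := Point.some (tX1 r x y) (tY1 r p x y) hns with hP
  have h4 : 4 • P = Point.some (tX1 r x y) y₅ h₅ := by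
    rw [show (4 : ℕ) = 2 * 2 from rfl, mul_nsmul, h2P, h4P]
  have hrm : tX1 (-r) x y ≠ tX1 r x y := by
    intro h
    have h36 : (36 : K) ≠ 0 := by
      have : (36 : K) = 2 ^ 2 * 3 ^ 2 := by norm_num
      rw [this]; exact mul_ne_zero (pow_ne_zero _ h2) (pow_ne_zero _ h3)
    have hr0 : r ≠ 0 := by
      intro h0
      rw [h0] at hr
      exact h5 (by linear_combination -hr)
    have hs := tX5_sub_conj r (x ^ 5) (y ^ 5)
    have h' : tX5 r (x ^ 5) (y ^ 5) = tX5 (-r) (x ^ 5) (y ^ 5) := by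
      unfold tX1 at h
      field_simp at h
      exact h.symm
    rw [h', sub_self] at hs
    exact (mul_ne_zero (mul_ne_zero (neg_ne_zero.mpr h36) hr0) hm) hs.symm
  rcases Affine.Y_eq_of_X_eq h₅.1 hns.1 rfl with h | h
  · -- `4P = P` would force `2P = -P`, i.e. `x(2P) = x(P)`
    exfalso
    have h4' : 4 • P = P := by
      rw [h4, hP]
      congr
    have h2' : 2 • P = -P := by
      have e : 2 • P + 2 • P = P := by rw [← add_nsmul]; exact h4'
      rw [two_nsmul] at e ⊢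
      have e0 : P + P + P = 0 := by
        have e' : P + P + (P + P) - P = P - P := by rw [e]
        rw [sub_self] at e'
        rw [← e']; abel
      exact eq_neg_of_add_eq_zero_left e0
    rw [h2P, hP, Point.neg_some] at h2'
    have := (Point.some.injEq ..).mp h2'
    exact hrm this.1
  · have h4' : 4 • P = -P := by
      rw [h4, hP, Point.neg_some]
      congr
    rw [show (5 : ℕ) = 4 + 1 from rfl, add_nsmul, one_nsmul, h4', neg_add_cancel]

/-- The explicit point has exact order `5`. -/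
theorem klein_torsion_point_addOrderOf (h2 : (2 : K) ≠ 0) (h3 : (3 : K) ≠ 0) (h5 : (5 : K) ≠ 0)
    (ha₁ : W.a₁ = 0) (ha₂ : W.a₂ = 0) (ha₃ : W.a₃ = 0) (x y : K)
    (ha₄ : W.a₄ = 27 * kH x y) (ha₆ : W.a₆ = 54 * kT x y) (hf : kf x y ≠ 0)
    (r p : K) (hr : r ^ 2 = 5) (hp : p ^ 2 = -5832 * (25 + 11 * r)) :
    ∃ h : W.Nonsingular (tX1 r x y) (tY1 r p x y),
      addOrderOf (Point.some (tX1 r x y) (tY1 r p x y) h) = 5 := by
  obtain ⟨h, h5P⟩ := klein_torsion_point W h2 h3 h5 ha₁ ha₂ ha₃ x y ha₄ ha₆ hf r p hr hp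
  refine ⟨h, ?_⟩
  have hdvd := addOrderOf_dvd_of_nsmul_eq_zero h5P
  rcases (Nat.dvd_prime (by norm_num : Nat.Prime 5)).mp hdvd with h1 | h1
  · exact absurd (AddMonoid.addOrderOf_eq_one_iff.mp h1) (Point.some_ne_zero h)
  · exact h1

/-- Existence form of E2: a nonzero point killed by `5`, with its coordinates. -/
theorem exists_klein_torsion_point (h2 : (2 : K) ≠ 0) (h3 : (3 : K) ≠ 0) (h5 : (5 : K) ≠ 0)
    (ha₁ : W.a₁ = 0) (ha₂ : W.a₂ = 0) (ha₃ : W.a₃ = 0) (x y : K)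
    (ha₄ : W.a₄ = 27 * kH x y) (ha₆ : W.a₆ = 54 * kT x y) (hf : kf x y ≠ 0)
    (r p : K) (hr : r ^ 2 = 5) (hp : p ^ 2 = -5832 * (25 + 11 * r)) :
    ∃ P : W.Point, P ≠ 0 ∧ 5 • P = 0 ∧
      ∃ h : W.Nonsingular (tX1 r x y) (tY1 r p x y),
        P = Point.some (tX1 r x y) (tY1 r p x y) h := by
  obtain ⟨h, h5P⟩ := klein_torsion_point W h2 h3 h5 ha₁ ha₂ ha₃ x y ha₄ ha₆ hf r p hr hp
  exact ⟨_, Point.some_ne_zero h, h5P, h, rfl⟩

end Main

section Naturality

variable {R S : Type*} [CommRing R] [CommRing S] (φ : R →+* S)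

theorem map_kf (x y : R) : φ (kf x y) = kf (φ x) (φ y) := by simp [kf, map_ofNat]

theorem map_kH (x y : R) : φ (kH x y) = kH (φ x) (φ y) := by simp [kH, map_ofNat]

theorem map_kT (x y : R) : φ (kT x y) = kT (φ x) (φ y) := by simp [kT, map_ofNat]

theorem map_km (u v : R) : φ (km u v) = km (φ u) (φ v) := by simp [km, map_ofNat]

theorem map_tX5 (r u v : R) : φ (tX5 r u v) = tX5 (φ r) (φ u) (φ v) := by simp [tX5, km, map_ofNat]

theorem map_tL (r u v : R) : φ (tL r u v) = tL (φ r) (φ u) (φ v) := by simp [tL, map_ofNat]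

theorem map_tY10 (r p u v : R) : φ (tY10 r p u v) = tY10 (φ r) (φ p) (φ u) (φ v) := by
  simp [tY10, tL, km, map_ofNat]

variable {K L : Type*} [Field K] [Field L] (ψ : K →+* L)

/-- The coordinates of the explicit torsion point commute with field homomorphisms (for instance
with Frobenius, which raises the constants and the point `v` to the `ℓ`-th power). -/
theorem map_tX1 (r x y : K) : ψ (tX1 r x y) = tX1 (ψ r) (ψ x) (ψ y) := by
  simp [tX1, map_tX5, map_ofNat]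

theorem map_tY1 (r p x y : K) : ψ (tY1 r p x y) = tY1 (ψ r) (ψ p) (ψ x) (ψ y) := by
  simp [tY1, map_tY10, map_ofNat]

end Naturality

section Constants

variable {K : Type*} [Field K]

/-- Over an algebraically closed field the constants `(r, p)` exist. -/
theorem exists_tors_constants [IsAlgClosed K] :
    ∃ r p : K, r ^ 2 = 5 ∧ p ^ 2 = -5832 * (25 + 11 * r) := by
  obtain ⟨r, hr⟩ := IsAlgClosed.exists_pow_nat_eq (5 : K) (by norm_num : 0 < 2)
  obtain ⟨p, hp⟩ := IsAlgClosed.exists_pow_nat_eq (-5832 * (25 + 11 * r) : K)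
    (by norm_num : 0 < 2)
  exact ⟨r, p, hr, hp⟩

end Constants

end Fermat.Agent.S52.H91
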